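import Fermat.Agent.DeBruijn.Heat
import Mathlib.Analysis.Complex.Polynomial.Basic
import Mathlib.Algebra.Polynomial.Splits
import Mathlib.Analysis.Calculus.Deriv.Polynomial

/-!
# The composition theorem of Schur and Szegő

If all zeros of `∑ C (d, k) g k x^k` are in `(-∞, 0]` and those of `∑ c k x^k` are real, the zeros
of `∑ g k c k x^k` are real. For nonreal `z` the region `K = {t | 0 ≤ lin v t}`, `v = ± i z`,
has the line `ℝ z` on its boundary and no negative number; a polar derivative with pole in `K`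
keeps the zeros out of `K` (Laguerre), and iterated `d` times gives the composed polynomial
at `z`.
-/

set_option autoImplicit false

noncomputable section

namespace FA.MultiplierSequences

open Polynomial Filter Topology

/-- All zeros of `∑_{j ≤ d} c j z^j` are real, or it is `0`. -/
def RealRooted (c : ℕ → ℂ) (d : ℕ) : Prop :=
  (∀ z : ℂ, ∑ j ∈ Finset.range (d + 1), c j * z ^ j = 0 → z.im = 0) ∨ ∀ j ≤ d, c j = 0

/-- All zeros of `∑_{j ≤ d} c j z^j` are real and `≤ 0`. -/
def NonposZeros (c : ℕ → ℂ) (d : ℕ) : Prop :=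
  ∀ z : ℂ, ∑ j ∈ Finset.range (d + 1), c j * z ^ j = 0 → z.im = 0 ∧ z.re ≤ 0

/-- The polynomial with these coefficients. -/
def coeffPoly (c : ℕ → ℂ) (d : ℕ) : ℂ[X] := ∑ j ∈ Finset.range (d + 1), C (c j) * X ^ j

theorem eval_coeffPoly (c : ℕ → ℂ) (d : ℕ) (z : ℂ) :
    (coeffPoly c d).eval z = ∑ j ∈ Finset.range (d + 1), c j * z ^ j := by
  simp [coeffPoly, eval_finsetSum]

theorem coeff_coeffPoly (c : ℕ → ℂ) (d k : ℕ) :
    (coeffPoly c d).coeff k = if k ≤ d then c k else 0 := by
  simp [coeffPoly, coeff_X_pow, Finset.sum_ite_eq]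

theorem natDegree_coeffPoly_le (c : ℕ → ℂ) (d : ℕ) : (coeffPoly c d).natDegree ≤ d :=
  natDegree_le_iff_coeff_eq_zero.2 fun k hk => by rw [coeff_coeffPoly, if_neg (by omega)]

/-- **Hurwitz**: the property passes to limits. -/
theorem realRooted_of_tendsto {c : ℕ → ℕ → ℂ} {b : ℕ → ℂ} {d : ℕ}
    (hc : ∀ᶠ N in atTop, RealRooted (c N) d)
    (hlim : ∀ j ≤ d, Tendsto (fun N => c N j) atTop (𝓝 (b j))) : RealRooted b d := by
  refine or_iff_not_imp_right.2 fun hb z hz => ?_
  push Not at hb
  obtain ⟨i, hi, hbi⟩ := hb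
  by_contra him
  refine FA.DeBruijn.ne_zero_of_limit (U := {w : ℂ | w.im ≠ 0})
    (isOpen_ne.preimage Complex.continuous_im)
    (F := fun N w => ∑ j ∈ Finset.range (d + 1), c N j * w ^ j)
    (g := fun w => ∑ j ∈ Finset.range (d + 1), b j * w ^ j)
    (fun N => by fun_prop) (by fun_prop) (fun R ε hε => ?_) ?_ ?_ him hz
  · have h : Tendsto (fun N => ∑ j ∈ Finset.range (d + 1), ‖c N j - b j‖ * max R 0 ^ j)
        atTop (𝓝 0) := by
      have := tendsto_finsetSum (Finset.range (d + 1)) fun j hj =>
        ((hlim j (Nat.lt_succ_iff.1 (Finset.mem_range.1 hj))).sub_const (b j)).norm.mul_const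
          (max R 0 ^ j)
      simpa using this
    filter_upwards [h.eventually_lt_const hε] with N hN w hw
    refine lt_of_le_of_lt ?_ hN
    rw [← Finset.sum_sub_distrib]
    refine (norm_sum_le _ _).trans (Finset.sum_le_sum fun j _ => ?_)
    rw [← sub_mul, norm_mul, norm_pow]
    exact mul_le_mul_of_nonneg_left
      (pow_le_pow_left₀ (norm_nonneg w) (hw.trans (le_max_left _ _)) j) (norm_nonneg _)
  · filter_upwards [hc, (hlim i hi).eventually_ne hbi] with N hN hne w hw h0
    exact hw ((hN.resolve_right fun h => hne (h i hi)) w h0)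
  · by_contra hno
    push Not at hno
    have h0 : coeffPoly b d = 0 := Polynomial.funext fun w => by
      rw [eval_coeffPoly, hno w, eval_zero]
    exact hbi (by simpa [coeff_coeffPoly, hi] using congrArg (fun p : ℂ[X] => p.coeff i) h0)

/-- The real scalar product of `v` and `t`. -/
def lin (v t : ℂ) : ℝ := v.re * t.re + v.im * t.im

theorem re_mul_inv_eq (v y : ℂ) : (v * (1 / y)).re = lin v y / Complex.normSq y := by
  simp [lin, Complex.mul_re, Complex.inv_re, Complex.inv_im]
  ring

theorem lin_sub (v t s : ℂ) : lin v (t - s) = lin v t - lin v s := by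
  simp [lin]
  ring

theorem lin_sum_inv {v t : ℂ} (ht : 0 ≤ lin v t) :
    ∀ R : Multiset ℂ, R ≠ 0 → (∀ r ∈ R, lin v r < 0) →
      lin v t * Complex.normSq (R.map fun r => 1 / (t - r)).sum <
        (Multiset.card R : ℝ) * (v * (R.map fun r => 1 / (t - r)).sum).re := by
  intro R
  induction R using Multiset.induction_on with
  | empty => intro h; exact absurd rfl h
  | cons r R ih =>
    intro _ hR
    have hr := hR r (Multiset.mem_cons_self r R)
    obtain ⟨u, hu⟩ : ∃ u, u = 1 / (t - r) := ⟨_, rfl⟩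
    have hy : 0 < lin v (t - r) := by rw [lin_sub]; linarith
    have hy0 : t - r ≠ 0 := fun h => by simp [h, lin] at hy
    have hu1 : lin v t * Complex.normSq u < (v * u).re := by
      rw [hu, re_mul_inv_eq, one_div, map_inv₀, div_eq_mul_inv]
      refine mul_lt_mul_of_pos_right ?_ (inv_pos.2 (Complex.normSq_pos.2 hy0))
      rw [lin_sub]
      linarith
    simp only [Multiset.map_cons, Multiset.sum_cons, Multiset.card_cons, ← hu]
    rcases eq_or_ne R 0 with rfl | hR0
    · simpa using hu1
    obtain ⟨S, hS⟩ : ∃ S, S = (R.map fun r => 1 / (t - r)).sum := ⟨_, rfl⟩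
    rw [← hS]
    have h2 := ih hR0 fun a ha => hR a (Multiset.mem_cons_of_mem ha)
    rw [← hS] at h2
    obtain ⟨m, hm, hm0⟩ : ∃ m : ℝ, m = (Multiset.card R : ℝ) ∧ 0 < m :=
      ⟨_, rfl, Nat.cast_pos.2 (Multiset.card_pos.2 hR0)⟩
    rw [← hm] at h2
    push_cast
    rw [← hm, mul_add v, Complex.add_re]
    have hcs : m * Complex.normSq (u + S) ≤
        (m + 1) * (Complex.normSq S + m * Complex.normSq u) := by
      simp only [Complex.normSq_apply, Complex.add_re, Complex.add_im]
      nlinarith [sq_nonneg (S.re - m * u.re), sq_nonneg (S.im - m * u.im)]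
    refine lt_of_mul_lt_mul_left ?_ hm0.le
    nlinarith [mul_le_mul_of_nonneg_left hcs ht, mul_lt_mul_of_pos_left hu1
      (show 0 < m * (m + 1) by positivity), mul_lt_mul_of_pos_left h2
      (show 0 < m + 1 by positivity)]

/-- **Laguerre's theorem on the polar derivative**, `g` in binomial normalisation. -/
theorem polar_step {v w : ℂ} (hw : 0 ≤ lin v w) {m : ℕ} {g : ℕ → ℂ} (hg : g (m + 1) ≠ 0)
    (h : ∀ t : ℂ, ∑ k ∈ Finset.range (m + 2), ((m + 1).choose k : ℂ) * g k * t ^ k = 0 →
      lin v t < 0) :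
    g m + w * g (m + 1) ≠ 0 ∧
      ∀ t : ℂ, ∑ k ∈ Finset.range (m + 1), (m.choose k : ℂ) * (g k + w * g (k + 1)) * t ^ k = 0 →
        lin v t < 0 := by
  obtain ⟨F, hF⟩ : ∃ F, F = coeffPoly (fun k => ((m + 1).choose k : ℂ) * g k) (m + 1) := ⟨_, rfl⟩
  have hcoeff : ∀ k, k ≤ m + 1 → F.coeff k = ((m + 1).choose k : ℂ) * g k := fun k hk => by
    rw [hF, coeff_coeffPoly, if_pos hk]
  have hdeg : F.natDegree = m + 1 := natDegree_eq_of_le_of_coeff_ne_zero
    (hF ▸ natDegree_coeffPoly_le _ _) (by rw [hcoeff _ le_rfl]; simpa using hg)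
  have hroots : ∀ r ∈ F.roots, lin v r < 0 := fun r hr => h r (by
    have := isRoot_of_mem_roots hr
    rwa [hF, IsRoot.def, eval_coeffPoly] at this)
  have hcard : Multiset.card F.roots = m + 1 := by
    rw [← (IsAlgClosed.splits F).natDegree_eq_card_roots, hdeg]
  refine ⟨fun h0 => ?_, fun t ht => ?_⟩
  · have hnc := (IsAlgClosed.splits F).nextCoeff_eq_neg_sum_roots_mul_leadingCoeff
    rw [nextCoeff_of_natDegree_pos (by omega), leadingCoeff, hdeg, Nat.add_sub_cancel,
      hcoeff _ le_rfl, hcoeff _ (Nat.le_succ m), Nat.choose_self, Nat.choose_succ_self_right] at hnc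
    have hsum : F.roots.sum = ((m + 1 : ℕ) : ℂ) * w := by
      refine mul_right_cancel₀ hg ?_
      push_cast at hnc ⊢
      linear_combination hnc - ((m : ℂ) + 1) * h0
    have hlt : ∀ R : Multiset ℂ, R ≠ 0 → (∀ r ∈ R, lin v r < 0) → lin v R.sum < 0 := by
      intro R
      induction R using Multiset.induction_on with
      | empty => intro h; exact absurd rfl h
      | cons r R ih =>
        intro _ hR
        have hr := hR r (Multiset.mem_cons_self r R)
        rcases eq_or_ne R 0 with rfl | hR0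
        · simpa using hr
        have := ih hR0 fun a ha => hR a (Multiset.mem_cons_of_mem ha)
        rw [Multiset.sum_cons]
        simp [lin] at this hr ⊢
        linarith
    have := hlt F.roots (fun h => by simp [h] at hcard) hroots
    rw [hsum] at this
    simp [lin] at this hw
    nlinarith [(Nat.cast_nonneg m : (0 : ℝ) ≤ m)]
  · by_contra hlt
    rw [not_lt] at hlt
    obtain ⟨G, hG⟩ : ∃ G, G = ∑ k ∈ Finset.range (m + 1), (m.choose k : ℂ) * g (k + 1) * t ^ k :=
      ⟨_, rfl⟩
    have hFt : F.eval t = (∑ k ∈ Finset.range (m + 1), (m.choose k : ℂ) * g k * t ^ k) + t * G := by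
      rw [hF, eval_coeffPoly, Finset.sum_range_succ' _ (m + 1), Finset.sum_range_succ'
        (fun k => (m.choose k : ℂ) * g k * t ^ k) m, hG, Finset.mul_sum]
      rw [Finset.sum_congr rfl fun k _ => show
          ((m + 1).choose (k + 1) : ℂ) * g (k + 1) * t ^ (k + 1) =
            (m.choose (k + 1) : ℂ) * g (k + 1) * t ^ (k + 1) +
            t * ((m.choose k : ℂ) * g (k + 1) * t ^ k) by
        rw [Nat.choose_succ_succ]; push_cast; ring, Finset.sum_add_distrib,
        Finset.sum_range_succ (fun k => (m.choose (k + 1) : ℂ) * g (k + 1) * t ^ (k + 1)) m,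
        Nat.choose_succ_self]
      simp
      ring
    have hne : F.eval t ≠ 0 := fun h0 => by
      have := h t (by rwa [hF, eval_coeffPoly] at h0)
      linarith
    have hD : (derivative F).eval t = ((m + 1 : ℕ) : ℂ) * G := by
      rw [hF, coeffPoly, derivative_sum, eval_finsetSum, Finset.sum_range_succ' _ (m + 1), hG,
        Finset.mul_sum]
      simp only [derivative_C_mul_X_pow, eval_mul, eval_C, eval_pow, eval_X, Nat.add_sub_cancel,
        Nat.cast_zero, mul_zero, zero_mul, add_zero]
      refine Finset.sum_congr rfl fun k _ => ?_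
      have e : ((m + 1).choose (k + 1) : ℂ) * ((k : ℂ) + 1) = ((m : ℂ) + 1) * (m.choose k : ℂ) := by
        exact_mod_cast (Nat.add_one_mul_choose_eq m k).symm
      push_cast
      linear_combination g (k + 1) * t ^ k * e
    have hs := (IsAlgClosed.splits F).eval_derivative_div_eval_of_ne_zero hne
    obtain ⟨S, hS⟩ : ∃ S, S = (F.roots.map fun r => 1 / (t - r)).sum := ⟨_, rfl⟩
    have hG0 : F.eval t = (t - w) * G := by
      simp only [mul_add, add_mul, Finset.sum_add_distrib] at ht
      rw [show ∑ k ∈ Finset.range (m + 1), (m.choose k : ℂ) * (w * g (k + 1)) * t ^ k = w * G by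
        rw [hG, Finset.mul_sum]
        exact Finset.sum_congr rfl fun k _ => by ring] at ht
      rw [hFt]
      linear_combination ht
    have hy : t - w ≠ 0 := fun h0 => hne (by rw [hG0, h0, zero_mul])
    have hG1 : G ≠ 0 := fun h0 => hne (by rw [hG0, h0, mul_zero])
    have hSe : S = ((m + 1 : ℕ) : ℂ) * (1 / (t - w)) := by
      rw [hS, ← hs, hD, hG0]
      field_simp
    have := lin_sum_inv hlt F.roots (fun h => by simp [h] at hcard) hroots
    rw [← hS, hcard, hSe, mul_left_comm, map_mul, Complex.normSq_natCast, ← Complex.ofReal_natCast,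
      Complex.re_ofReal_mul, re_mul_inv_eq, one_div, map_inv₀, lin_sub] at this
    refine absurd this (not_lt.2 ?_)
    rw [div_eq_mul_inv]
    have hN := inv_pos.2 (Complex.normSq_pos.2 hy)
    nlinarith [mul_nonneg (mul_nonneg (mul_self_nonneg ((m + 1 : ℕ) : ℝ)) hN.le) hw]

/-- **Grace's theorem for the boundary poles.** -/
theorem sum_polar_ne_zero {v : ℂ} :
    ∀ (W : Multiset ℂ) (g : ℕ → ℂ), (∀ w ∈ W, 0 ≤ lin v w) → g (Multiset.card W) ≠ 0 →
      (∀ t : ℂ, ∑ k ∈ Finset.range (Multiset.card W + 1),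
        ((Multiset.card W).choose k : ℂ) * g k * t ^ k = 0 → lin v t < 0) →
      ∑ k ∈ Finset.range (Multiset.card W + 1),
        g k * (W.map fun w => C w * X + 1).prod.coeff k ≠ 0 := by
  intro W
  induction W using Multiset.induction_on with
  | empty => intro g _ hg _; simpa using hg
  | cons w W ih =>
    intro g hW hg h
    rw [Multiset.card_cons] at hg h ⊢
    obtain ⟨hg', h'⟩ := polar_step (hW w (Multiset.mem_cons_self w W)) hg h
    have := ih (fun k => g k + w * g (k + 1))
      (fun a ha => hW a (Multiset.mem_cons_of_mem ha)) hg' h'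
    intro h0
    refine this ?_
    obtain ⟨q, hq⟩ : ∃ q, q = (W.map fun w => C w * X + 1).prod := ⟨_, rfl⟩
    rw [← hq]
    have htop : q.coeff (Multiset.card W + 1) = 0 := by
      refine coeff_eq_zero_of_natDegree_lt (Nat.lt_succ_of_le ?_)
      rw [hq]
      refine (natDegree_multiset_prod_le _).trans ((Multiset.sum_le_card_nsmul _ 1 ?_).trans ?_)
      · intro n hn
        simp only [Multiset.map_map, Multiset.mem_map, Function.comp_apply] at hn
        obtain ⟨a, -, rfl⟩ := hn
        exact natDegree_linear_le (a := a) (b := (1 : ℂ)) |> fun h => by simpa using h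
      · simp
    rw [Multiset.map_cons, Multiset.prod_cons, ← hq, Finset.sum_range_succ' _ (Multiset.card W + 1)]
      at h0
    simp only [add_mul, one_mul, coeff_add, mul_assoc, coeff_C_mul, coeff_X_mul, mul_add,
      Finset.sum_add_distrib, mul_coeff_zero, coeff_X_zero, zero_mul, mul_zero, zero_add] at h0 ⊢
    rw [Finset.sum_range_succ' (fun k => g k * q.coeff k)]
    rw [Finset.sum_range_succ (fun k => g (k + 1) * q.coeff (k + 1)), htop, mul_zero,
      add_zero] at h0
    rw [Finset.sum_congr rfl fun k _ => mul_left_comm (g (k + 1)) w (q.coeff k)] at h0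
    linear_combination h0

theorem coeff_scale (z : ℂ) : ∀ (B : Multiset ℂ) (k : ℕ),
    (B.map fun b => C (b * z) * X + 1).prod.coeff k =
      (B.map fun b => C b * X + 1).prod.coeff k * z ^ k := by
  intro B
  induction B using Multiset.induction_on with
  | empty => intro k; rcases k with _ | k <;> simp [coeff_one]
  | cons b B ih =>
    intro k
    simp only [Multiset.map_cons, Multiset.prod_cons, add_mul, one_mul, coeff_add, mul_assoc,
      coeff_C_mul]
    rcases k with _ | k
    · rw [coeff_X_mul_zero, coeff_X_mul_zero, ih 0]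
      simp
    · rw [coeff_X_mul, coeff_X_mul, ih k, ih (k + 1), pow_succ]
      ring

/-- The factorisation at `0` of a polynomial with real zeros. -/
theorem exists_linear_factors {p : ℂ[X]} {d : ℕ} (hd : p.natDegree ≤ d) (h0 : p.eval 0 ≠ 0)
    (hp : ∀ z : ℂ, p.eval z = 0 → z.im = 0) :
    ∃ B : Multiset ℂ, Multiset.card B = d ∧ (∀ b ∈ B, b.im = 0) ∧
      p = C (p.eval 0) * (B.map fun b => C b * X + 1).prod := by
  obtain ⟨B, hB⟩ : ∃ B, B = (p.roots.map fun r => -(1 / r)) +
      Multiset.replicate (d - p.natDegree) (0 : ℂ) := ⟨_, rfl⟩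
  refine ⟨B, ?_, fun b hb => ?_, ?_⟩
  · rw [hB, Multiset.card_add, Multiset.card_map, Multiset.card_replicate,
      ← (IsAlgClosed.splits p).natDegree_eq_card_roots]
    omega
  · rw [hB, Multiset.mem_add] at hb
    rcases hb with hb | hb
    · obtain ⟨r, hr, rfl⟩ := Multiset.mem_map.1 hb
      simp [Complex.inv_im, hp r (isRoot_of_mem_roots hr)]
    · rw [Multiset.eq_of_mem_replicate hb, Complex.zero_im]
  · have key : ∀ R : Multiset ℂ, (∀ r ∈ R, r ≠ 0) → (R.map fun r => X - C r).prod =
        C ((R.map fun r => -r).prod) * (R.map fun r => C (-(1 / r)) * X + 1).prod := by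
      intro R
      induction R using Multiset.induction_on with
      | empty => simp
      | cons r R ih =>
        intro hR
        have hr : r ≠ 0 := hR r (Multiset.mem_cons_self r R)
        rw [Multiset.map_cons, Multiset.prod_cons,
          ih fun a ha => hR a (Multiset.mem_cons_of_mem ha),
          Multiset.map_cons, Multiset.prod_cons, Multiset.map_cons, Multiset.prod_cons, map_mul,
          show X - C r = C (-r) * (C (-(1 / r)) * X + 1) by
            rw [mul_add, mul_one, ← mul_assoc, ← C_mul, show -r * -(1 / r) = 1 by field_simp,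
              C_1, one_mul, map_neg, sub_eq_add_neg]]
        ring
    have hne : ∀ r ∈ p.roots, r ≠ 0 := fun r hr e => h0 (by
      subst e
      exact isRoot_of_mem_roots hr)
    have hsp := (IsAlgClosed.splits p).eq_prod_roots
    have he0 : p.eval 0 = p.leadingCoeff * (p.roots.map fun r => -r).prod := by
      conv_lhs => rw [hsp]
      simp [eval_multiset_prod, Multiset.map_map]
    rw [hB, Multiset.map_add, Multiset.prod_add, Multiset.map_map, he0, map_mul, mul_assoc,
      Multiset.map_replicate, Multiset.prod_replicate, C_0, zero_mul, zero_add, one_pow, mul_one]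
    conv_lhs => rw [hsp, key _ hne]
    simp

/-- The composition theorem away from the degenerate cases. -/
theorem composition_ne_zero {d : ℕ} {g c : ℕ → ℂ} (hgd : g d ≠ 0) (hg0 : g 0 ≠ 0)
    (hg : NonposZeros (fun k => (d.choose k : ℂ) * g k) d) (hc0 : c 0 ≠ 0)
    (hc : ∀ z : ℂ, ∑ k ∈ Finset.range (d + 1), c k * z ^ k = 0 → z.im = 0) {z : ℂ}
    (hz : z.im ≠ 0) : ∑ k ∈ Finset.range (d + 1), g k * c k * z ^ k ≠ 0 := by
  have hp0 : (coeffPoly c d).eval 0 = c 0 := by
    rw [← coeff_zero_eq_eval_zero, coeff_coeffPoly, if_pos (Nat.zero_le d)]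
  obtain ⟨B, hBc, hBim, hBp⟩ := exists_linear_factors (natDegree_coeffPoly_le c d)
    (by rwa [hp0]) fun w hw => hc w (by rwa [eval_coeffPoly] at hw)
  obtain ⟨v, hv⟩ : ∃ v : ℂ, v = if 0 < z.im then -(Complex.I * z) else Complex.I * z := ⟨_, rfl⟩
  have hvre : 0 < v.re := by
    rw [hv]
    split_ifs with h
    · simpa using h
    · simpa using lt_of_le_of_ne (not_lt.1 h) hz
  have hvz : lin v z = 0 := by
    rw [hv]
    split_ifs <;> simp [lin] <;> ring
  have hsum := sum_polar_ne_zero (v := v) (B.map fun b => b * z) g (fun w hw => by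
    obtain ⟨b, hb, rfl⟩ := Multiset.mem_map.1 hw
    have : lin v (b * z) = b.re * lin v z := by
      simp [lin, hBim b hb]
      ring
    rw [this, hvz, mul_zero])
  rw [Multiset.card_map, hBc, Multiset.map_map] at hsum
  have := hsum hgd fun t ht => by
    obtain ⟨him, hre⟩ := hg t ht
    have hre' : t.re ≠ 0 := fun e => hg0 (by
      have e0 : t = 0 := Complex.ext (by simpa using e) (by simpa using him)
      subst e0
      simpa [Finset.sum_range_succ'] using ht)
    simp [lin, him]
    exact mul_neg_of_pos_of_neg hvre (lt_of_le_of_ne hre hre')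
  refine fun h0 => this (mul_left_cancel₀ hc0 ?_)
  rw [mul_zero, ← h0, Finset.mul_sum]
  refine Finset.sum_congr rfl fun k hk => ?_
  rw [Finset.mem_range] at hk
  have e := congrArg (fun p : ℂ[X] => p.coeff k) hBp
  simp only [coeff_coeffPoly, coeff_C_mul, if_pos (Nat.lt_succ_iff.1 hk), hp0] at e
  rw [show ((fun w => C w * X + 1) ∘ fun b => b * z) = fun b => C (b * z) * X + 1 from rfl,
    coeff_scale, e]
  ring

/-- Zero roots are moved to `-ε`, and the degree is raised to `d` by roots at `-1 / ε`. -/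
def pertPoly (ε : ℝ) (p : ℂ[X]) (d : ℕ) : ℂ[X] :=
  C p.leadingCoeff * (p.roots.map fun r => X - C (if r = 0 then -(ε : ℂ) else r)).prod *
    (C (ε : ℂ) * X + 1) ^ (d - p.natDegree)

theorem tendsto_pertPoly (p : ℂ[X]) (d : ℕ) {ε : ℕ → ℝ} (hε : Tendsto ε atTop (𝓝 0)) (k : ℕ) :
    Tendsto (fun N => (pertPoly (ε N) p d).coeff k) atTop (𝓝 (p.coeff k)) := by
  have hmul : ∀ {P Q : ℕ → ℂ[X]} {a b : ℂ[X]},
      (∀ i, Tendsto (fun N => (P N).coeff i) atTop (𝓝 (a.coeff i))) →
      (∀ i, Tendsto (fun N => (Q N).coeff i) atTop (𝓝 (b.coeff i))) →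
      ∀ i, Tendsto (fun N => (P N * Q N).coeff i) atTop (𝓝 ((a * b).coeff i)) := by
    intro P Q a b hP hQ i
    simp only [coeff_mul]
    exact tendsto_finsetSum _ fun u _ => (hP u.1).mul (hQ u.2)
  have hε' : Tendsto (fun N => (ε N : ℂ)) atTop (𝓝 0) := by
    simpa [Function.comp_def] using (Complex.continuous_ofReal.tendsto 0).comp hε
  have hR : ∀ (R : Multiset ℂ) (i : ℕ), Tendsto
      (fun N => (R.map fun r => X - C (if r = 0 then -(ε N : ℂ) else r)).prod.coeff i) atTop
      (𝓝 ((R.map fun r => X - C r).prod.coeff i)) := by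
    intro R
    induction R using Multiset.induction_on with
    | empty => intro i; simp
    | cons r R ih =>
      intro i
      simp only [Multiset.map_cons, Multiset.prod_cons]
      refine hmul (fun l => ?_) ih i
      simp only [coeff_sub, coeff_C]
      split_ifs with hl hr
      · subst hr
        simpa using hε'.const_add ((X : ℂ[X]).coeff l)
      all_goals exact tendsto_const_nhds
  have hpad : ∀ (n i : ℕ), Tendsto (fun N => ((C (ε N : ℂ) * X + 1) ^ n).coeff i) atTop
      (𝓝 (((1 : ℂ[X]) ^ n).coeff i)) := by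
    intro n
    induction n with
    | zero => intro i; simp
    | succ n ih =>
      intro i
      simp only [pow_succ]
      refine hmul ih (fun l => ?_) i
      simp only [coeff_add, coeff_C_mul]
      simpa using (hε'.mul_const ((X : ℂ[X]).coeff l)).add_const ((1 : ℂ[X]).coeff l)
  have := hmul (hmul (fun _ => tendsto_const_nhds (x := (C p.leadingCoeff).coeff _)) (hR p.roots))
    (hpad (d - p.natDegree)) k
  rwa [one_pow, mul_one, ← (IsAlgClosed.splits p).eq_prod_roots] at this

theorem pertPoly_spec {p : ℂ[X]} {d : ℕ} (hd : p.natDegree ≤ d) (hp : p ≠ 0) {ε : ℝ} (hε : 0 < ε) :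
    (pertPoly ε p d).natDegree = d ∧ (pertPoly ε p d).eval 0 ≠ 0 ∧
      ∀ z : ℂ, (pertPoly ε p d).eval z = 0 →
        z = -(ε : ℂ) ∨ z = -(1 / (ε : ℂ)) ∨ p.eval z = 0 := by
  have hε' : (ε : ℂ) ≠ 0 := Complex.ofReal_ne_zero.2 hε.ne'
  have hl := leadingCoeff_ne_zero.2 hp
  have hlin : (C (ε : ℂ) * X + 1 : ℂ[X]).natDegree = 1 := by
    simpa using natDegree_linear (b := (1 : ℂ)) hε'
  have hlin0 : (C (ε : ℂ) * X + 1 : ℂ[X]) ≠ 0 := fun h => by simp [h] at hlin
  refine ⟨?_, ?_, fun z hz => ?_⟩
  · have hprod : ((p.roots.map fun r => X - C (if r = 0 then -(ε : ℂ) else r)).prod).natDegree =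
        p.natDegree := by
      rw [show (fun r => X - C (if r = 0 then -(ε : ℂ) else r)) =
        (fun r => X - C r) ∘ fun r => if r = 0 then -(ε : ℂ) else r from rfl, ← Multiset.map_map,
        natDegree_multiset_prod_X_sub_C_eq_card, Multiset.card_map,
        ← (IsAlgClosed.splits p).natDegree_eq_card_roots]
    rw [pertPoly, natDegree_mul (mul_ne_zero (C_ne_zero.2 hl) ?_) (pow_ne_zero _ hlin0),
      natDegree_C_mul hl, hprod, natDegree_pow, hlin]
    · omega
    · exact (monic_multiset_prod_of_monic _ _ fun r _ => monic_X_sub_C _).ne_zero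
  · simp only [pertPoly, eval_mul, eval_C, eval_pow, eval_add, eval_X, mul_zero, eval_one,
      zero_add, one_pow, mul_one, eval_multiset_prod, ne_eq, mul_eq_zero, hl, false_or]
    rw [Multiset.prod_eq_zero_iff]
    intro h
    obtain ⟨q, hq, hq0⟩ := Multiset.mem_map.1 h
    obtain ⟨r, -, rfl⟩ := Multiset.mem_map.1 hq
    split_ifs at hq0 with hr <;> simp [hr, hε'] at hq0
  · simp only [pertPoly, eval_mul, eval_C, eval_pow, eval_add, eval_X, eval_one,
      eval_multiset_prod, mul_eq_zero, hl, false_or, pow_eq_zero_iff', Multiset.prod_eq_zero_iff]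
      at hz
    rcases hz with h | ⟨h, -⟩
    · obtain ⟨q, hq, hq0⟩ := Multiset.mem_map.1 h
      obtain ⟨r, hr, rfl⟩ := Multiset.mem_map.1 hq
      simp only [eval_sub, eval_X, eval_C, sub_eq_zero] at hq0
      split_ifs at hq0 with h1
      · exact Or.inl hq0
      · exact Or.inr (Or.inr (hq0 ▸ isRoot_of_mem_roots hr))
    · refine Or.inr (Or.inl ?_)
      field_simp
      linear_combination h

/-- **The composition theorem of Schur and Szegő.** -/
theorem schur_szego {d : ℕ} {g c : ℕ → ℂ} (hg : NonposZeros (fun k => (d.choose k : ℂ) * g k) d)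
    (hc : RealRooted c d) : RealRooted (fun k => g k * c k) d := by
  rcases hc with hc | hc
  swap
  · exact Or.inr fun j hj => by simp [hc j hj]
  obtain ⟨J, hJ⟩ : ∃ J, J = coeffPoly (fun k => (d.choose k : ℂ) * g k) d := ⟨_, rfl⟩
  obtain ⟨P, hP⟩ : ∃ P, P = coeffPoly c d := ⟨_, rfl⟩
  have hJ0 : J ≠ 0 := fun h => by
    have := (hg Complex.I (by rw [← eval_coeffPoly, ← hJ, h, eval_zero])).1
    simp at this
  have hP0 : P ≠ 0 := fun h => by
    have := hc Complex.I (by rw [← eval_coeffPoly, ← hP, h, eval_zero])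
    simp at this
  have hJd : J.natDegree ≤ d := hJ ▸ natDegree_coeffPoly_le _ _
  have hPd : P.natDegree ≤ d := hP ▸ natDegree_coeffPoly_le _ _
  obtain ⟨ε, hε⟩ : ∃ ε : ℕ → ℝ, ε = fun N : ℕ => 1 / ((N : ℝ) + 1) := ⟨_, rfl⟩
  have hε0 : Tendsto ε atTop (𝓝 0) := hε ▸ tendsto_one_div_add_atTop_nhds_zero_nat
  have hεp : ∀ N, 0 < ε N := fun N => by rw [hε]; positivity
  have hch : ∀ k, k ≤ d → (d.choose k : ℂ) ≠ 0 := fun k hk =>
    Nat.cast_ne_zero.2 (Nat.choose_pos hk).ne'
  refine realRooted_of_tendsto (c := fun N k =>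
    (pertPoly (ε N) J d).coeff k / (d.choose k : ℂ) * (pertPoly (ε N) P P.natDegree).coeff k)
    (Eventually.of_forall fun N => Or.inl fun z hz => ?_) fun j hj => ?_
  · obtain ⟨j1, j2, j3⟩ := pertPoly_spec hJd hJ0 (hεp N)
    obtain ⟨p1, p2, p3⟩ := pertPoly_spec le_rfl hP0 (hεp N)
    by_contra him
    have heval : ∀ {q : ℂ[X]}, q.natDegree ≤ d → ∀ w : ℂ,
        ∑ k ∈ Finset.range (d + 1), q.coeff k * w ^ k = q.eval w := fun {q} hq w =>
      (eval_eq_sum_range' (Nat.lt_succ_of_le hq) w).symm
    refine composition_ne_zero (d := d) (g := fun k => (pertPoly (ε N) J d).coeff k /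
      (d.choose k : ℂ)) (c := fun k => (pertPoly (ε N) P P.natDegree).coeff k) ?_ ?_
      (fun t ht => ?_) ?_ (fun t ht => ?_) him hz
    · refine div_ne_zero ?_ (hch d le_rfl)
      nth_rewrite 2 [← j1]
      rw [← leadingCoeff, Ne, leadingCoeff_eq_zero]
      intro h
      rw [h, eval_zero] at j2
      exact j2 rfl
    · simpa [coeff_zero_eq_eval_zero] using j2
    · simp only at ht
      rw [Finset.sum_congr rfl fun k hk => by
        rw [mul_div_cancel₀ _ (hch k (Nat.lt_succ_iff.1 (Finset.mem_range.1 hk)))],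
        heval j1.le] at ht
      rcases j3 t ht with rfl | rfl | h
      · simpa using (hεp N).le
      · simpa using (hεp N).le
      · exact hg t (by rwa [← eval_coeffPoly, ← hJ])
    · simpa [coeff_zero_eq_eval_zero] using p2
    · rw [heval (p1.le.trans hPd)] at ht
      rcases p3 t ht with rfl | rfl | h
      · simp
      · simp
      · exact hc t (by rwa [← eval_coeffPoly, ← hP])
  · have := ((tendsto_pertPoly J d hε0 j).div_const (d.choose j : ℂ)).mul
      (tendsto_pertPoly P P.natDegree hε0 j)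
    simpa [hJ, hP, coeff_coeffPoly, hj, hch j hj] using this

end FA.MultiplierSequences

end
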