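import Fermat.Agent.MultiplierSequences.Signs
import Mathlib.Analysis.Calculus.IteratedDeriv.Defs
import Mathlib.Analysis.Complex.LocallyUniformLimit
import Mathlib.Analysis.Complex.Liouville
import Mathlib.Analysis.Normed.Group.Tannery

/-!
# The transcendental criterion of Pólya and Schur

`g` is a multiplier sequence in every degree iff `∑ g k z^k / k!` is everywhere convergent and, up
to `z ↦ -z`, a locally uniform limit of real polynomials with all zeros in `(-∞, 0]`; the scaled
Jensen polynomials are such a sequence.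
-/

set_option autoImplicit false

noncomputable section

namespace FA.MultiplierSequences

open Polynomial Filter Topology
open scoped Nat

variable {g : ℕ → ℝ}

/-- `g` keeps real zeros in every degree. -/
def IsMultiplierSeq (g : ℕ → ℝ) : Prop := ∀ d, IsMultiplier g d

theorem choose_factor_le_one (D j : ℕ) : (D.choose j : ℝ) * j ! / (D : ℝ) ^ j ≤ 1 := by
  rw [← Nat.cast_mul, mul_comm, ← Nat.descFactorial_eq_factorial_mul_choose]
  rcases Nat.eq_zero_or_pos D with rfl | hd
  · rcases j with _ | i <;> simp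
  · rw [div_le_one (by positivity)]
    exact_mod_cast Nat.descFactorial_le_pow D j

theorem tendsto_choose_factor (j : ℕ) :
    Tendsto (fun D : ℕ => (D.choose j : ℝ) * j ! / (D : ℝ) ^ j) atTop (𝓝 1) := by
  induction j with
  | zero => simp
  | succ i ih =>
    have h1 : Tendsto (fun D : ℕ => 1 - (i : ℝ) * (D : ℝ)⁻¹) atTop (𝓝 1) := by
      simpa using ((tendsto_natCast_atTop_atTop (R := ℝ)).inv_tendsto_atTop.const_mul
        (i : ℝ)).const_sub 1
    have h2 := ih.mul h1
    rw [one_mul] at h2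
    refine h2.congr' ?_
    filter_upwards [eventually_gt_atTop i] with D hD
    have hD0 : (D : ℝ) ≠ 0 := Nat.cast_ne_zero.2 (by omega)
    have e := congrArg (Nat.cast : ℕ → ℝ) (Nat.choose_succ_right_eq D i)
    push_cast [Nat.cast_sub hD.le] at e
    rw [Nat.factorial_succ]
    push_cast
    rw [show (D.choose (i + 1) : ℝ) * (((i : ℝ) + 1) * (i ! : ℝ)) =
        (D.choose i : ℝ) * ((D : ℝ) - i) * (i ! : ℝ) by rw [← e]; ring, pow_succ]
    field_simp

/-- Geometric growth at most. -/
theorem exists_geometric_bound (h : IsMultiplierSeq g) :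
    ∃ K C : ℝ, 0 ≤ K ∧ 0 ≤ C ∧ ∀ k, |g k| ≤ K * C ^ k := by
  classical
  by_cases h0 : ∀ k, g k = 0
  · exact ⟨0, 0, le_rfl, le_rfl, fun k => by simp [h0 k]⟩
  push Not at h0
  obtain ⟨m, hm, hmin⟩ : ∃ m, g m ≠ 0 ∧ ∀ k, k < m → g k = 0 :=
    ⟨Nat.find h0, Nat.find_spec h0, fun k hk => not_not.1 (Nat.find_min h0 hk)⟩
  obtain ⟨C, hC⟩ : ∃ C, C = |g (m + 1)| / |g m| := ⟨_, rfl⟩
  have hC0 : 0 ≤ C := hC ▸ by positivity
  have hstep : ∀ i, |g (m + i + 1)| ≤ C * |g (m + i)| := by
    intro i
    induction i with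
    | zero => rw [hC, add_zero, div_mul_cancel₀ _ (abs_ne_zero.2 hm)]
    | succ i ih =>
      rw [← add_assoc]
      rcases eq_or_ne (g (m + i + 1 + 1)) 0 with h2 | h2
      · rw [h2, abs_zero]
        positivity
      have h1 : g (m + i + 1) ≠ 0 := support_interval (h (m + i + 1 + 1)) le_rfl hm h2 _
        (by omega) (by omega)
      have hpos : 0 < |g (m + i)| := abs_pos.2 (support_interval (h (m + i + 1 + 1)) le_rfl hm h2 _
        (by omega) (by omega))
      have hl := logConcave (h (m + i + 2)) (m := m + i) le_rfl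
      have hnn := mul_two_step (h (m + i + 2)) (m := m + i) le_rfl
      have hl' : |g (m + i)| * |g (m + i + 1 + 1)| ≤ |g (m + i + 1)| ^ 2 := by
        rw [← abs_mul, sq_abs]
        exact (abs_of_nonneg hnn).trans_le hl
      refine le_of_mul_le_mul_left (hl'.trans ?_) hpos
      rw [pow_two, ← mul_assoc, mul_comm _ C]
      exact mul_le_mul_of_nonneg_right ih (abs_nonneg _)
  refine ⟨|g m|, max C 1, abs_nonneg _, by positivity, fun k => ?_⟩
  rcases lt_or_ge k m with hk | hk
  · rw [hmin k hk, abs_zero]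
    positivity
  obtain ⟨i, rfl⟩ := Nat.exists_eq_add_of_le hk
  have hi : |g (m + i)| ≤ |g m| * C ^ i := by
    clear hk
    induction i with
    | zero => simp
    | succ i ih =>
      rw [pow_succ, ← mul_assoc, mul_comm _ C, ← add_assoc]
      exact (hstep i).trans (mul_le_mul_of_nonneg_left ih hC0)
  exact hi.trans (mul_le_mul_of_nonneg_left ((pow_le_pow_left₀ hC0 (le_max_left _ _) i).trans
    (pow_le_pow_right₀ (le_max_right _ _) (Nat.le_add_left i m))) (abs_nonneg _))

theorem exists_signs_seq (h : IsMultiplierSeq g) : ∃ σ : ℝ, (σ = 1 ∨ σ = -1) ∧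
    ∀ i j, 0 ≤ σ ^ (i + j) * (g i * g j) := by
  by_contra hno
  push Not at hno
  obtain ⟨a, b, hab⟩ := hno 1 (Or.inl rfl)
  obtain ⟨c, e, hce⟩ := hno (-1) (Or.inr rfl)
  obtain ⟨σ, hσ, hs⟩ := exists_signs (h (a + b + c + e))
  rcases hσ with rfl | rfl
  · exact absurd (hs a b (by omega) (by omega)) (not_le.2 hab)
  · exact absurd (hs c e (by omega) (by omega)) (not_le.2 hce)

theorem exists_approximation (h : IsMultiplierSeq g) :
    ∃ f : ℂ → ℂ, (∀ z, HasSum (fun k => (g k : ℂ) / (k ! : ℂ) * z ^ k) (f z)) ∧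
      ∃ σ : ℝ, (σ = 1 ∨ σ = -1) ∧ ∃ P : ℕ → ℝ[X],
        (∀ N (z : ℂ), aeval z (P N) = 0 → z.im = 0 ∧ z.re ≤ 0) ∧
        ∀ R ε : ℝ, 0 < ε →
          ∀ᶠ N in atTop, ∀ z : ℂ, ‖z‖ ≤ R → ‖aeval ((σ : ℂ) * z) (P N) - f z‖ < ε := by
  classical
  obtain ⟨K, C, hK, hC, hb⟩ := exists_geometric_bound h
  obtain ⟨σ, hσ, hs⟩ := exists_signs_seq h
  have hσ2 : ∀ k : ℕ, σ ^ k * σ ^ k = 1 := fun k => by
    rw [← mul_pow, show σ * σ = 1 by rcases hσ with rfl | rfl <;> norm_num, one_pow]
  have hsum : ∀ R : ℝ, Summable fun k => |g k| / k ! * max R 0 ^ k := fun R => by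
    refine Summable.of_nonneg_of_le (fun k => by positivity) (fun k => ?_)
      ((Real.summable_pow_div_factorial (C * max R 0)).mul_left K)
    rw [mul_pow, div_mul_eq_mul_div, ← mul_div_assoc]
    refine div_le_div_of_nonneg_right ?_ (by positivity)
    rw [← mul_assoc]
    exact mul_le_mul_of_nonneg_right (hb k) (by positivity)
  have hnorm : ∀ (z : ℂ) (k : ℕ),
      ‖(g k : ℂ) / (k ! : ℂ) * z ^ k‖ = |g k| / k ! * ‖z‖ ^ k := fun z k => by
    rw [norm_mul, norm_div, norm_pow, Complex.norm_real, Real.norm_eq_abs, Complex.norm_natCast]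
  have hs' : ∀ z : ℂ, Summable fun k => (g k : ℂ) / (k ! : ℂ) * z ^ k := fun z => by
    refine Summable.of_norm_bounded (hsum ‖z‖) fun k => ?_
    rw [hnorm, max_eq_left (norm_nonneg z)]
  refine ⟨fun z => ∑' k, (g k : ℂ) / (k ! : ℂ) * z ^ k, fun z => (hs' z).hasSum, σ, hσ, ?_⟩
  by_cases h0 : ∀ k, g k = 0
  · refine ⟨fun N => Polynomial.C (1 / ((N : ℝ) + 1)), fun N z hz => ?_, fun R ε hε => ?_⟩
    · rw [aeval_C, map_eq_zero] at hz
      exact absurd hz (by positivity)
    · filter_upwards [(tendsto_one_div_add_atTop_nhds_zero_nat (𝕜 := ℝ)).eventually_lt_const hε]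
        with N hN z _
      simp only [aeval_C, h0, Complex.ofReal_zero, zero_div, zero_mul, tsum_zero, sub_zero,
        Complex.coe_algebraMap, Complex.norm_real, Real.norm_eq_abs]
      rwa [abs_of_pos (by positivity)]
  push Not at h0
  obtain ⟨m, hm⟩ := h0
  obtain ⟨u, hu⟩ : ∃ u : ℕ → ℕ → ℝ,
      u = fun (D k : ℕ) => (D.choose k : ℝ) * (σ ^ k * g k) / (D : ℝ) ^ k := ⟨_, rfl⟩
  have heval : ∀ (D : ℕ) (z : ℂ), aeval z (∑ k ∈ Finset.range (D + 1), Polynomial.C (u D k) * X ^ k)
      = ∑ k ∈ Finset.range (D + 1), (u D k : ℂ) * z ^ k := fun D z => by simp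
  refine ⟨fun N => ∑ k ∈ Finset.range (N + 1 + m + 1), Polynomial.C (u (N + 1 + m) k) * X ^ k,
    fun N z hz => ?_, fun R ε hε => ?_⟩
  · rw [heval] at hz
    obtain ⟨D, hD⟩ : ∃ D, D = N + 1 + m := ⟨_, rfl⟩
    rw [← hD] at hz
    have hD0 : (D : ℝ) ≠ 0 := Nat.cast_ne_zero.2 (by omega)
    have hm0 : (D.choose m : ℝ) ≠ 0 := Nat.cast_ne_zero.2 (Nat.choose_pos (by omega)).ne'
    refine nonposZeros_of_signs (d := D) (u := u D) (fun i j _ _ => ?_) ⟨m, by omega, ?_⟩
      (fun w hw => ?_) z hz
    · calc (0 : ℝ) ≤ σ ^ (i + j) * (g i * g j) *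
            ((D.choose i : ℝ) / (D : ℝ) ^ i * ((D.choose j : ℝ) / (D : ℝ) ^ j)) :=
            mul_nonneg (hs i j) (by positivity)
        _ = _ := by rw [hu]; ring
    · simp only [hu]
      exact div_ne_zero (mul_ne_zero hm0 (mul_ne_zero (pow_ne_zero m
        (by rcases hσ with rfl | rfl <;> norm_num)) hm)) (pow_ne_zero m hD0)
    · have hJ := (realRooted_shift (h D) (m := 0) (n := D) (by omega)).resolve_right fun e =>
        hm (by simpa [(Nat.choose_pos (show m ≤ D by omega)).ne'] using e m (by omega))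
      have hw' := hJ ((σ : ℂ) * w / (D : ℂ)) (by
        rw [← hw]
        refine Finset.sum_congr rfl fun k _ => ?_
        simp only [hu, zero_add, div_pow, mul_pow]
        push_cast
        ring)
      rw [Complex.div_natCast_im, div_eq_zero_iff,
        or_iff_left (Nat.cast_ne_zero.2 (show D ≠ 0 by omega))] at hw'
      rcases hσ with rfl | rfl <;> simpa using hw'
  · have hdist : Tendsto (fun D : ℕ => ∑' k, |(D.choose k : ℝ) * k ! / (D : ℝ) ^ k - 1| *
        (|g k| / k ! * max R 0 ^ k)) atTop (𝓝 0) := by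
      have := tendsto_tsum_of_dominated_convergence (g := fun _ : ℕ => (0 : ℝ))
        (f := fun (D : ℕ) (k : ℕ) => |(D.choose k : ℝ) * k ! / (D : ℝ) ^ k - 1| *
          (|g k| / k ! * max R 0 ^ k))
        (bound := fun k => |g k| / k ! * max R 0 ^ k) (𝓕 := atTop) (hsum R)
        (fun k => by simpa using
          (((tendsto_choose_factor k).sub_const 1).abs).mul_const (|g k| / k ! * max R 0 ^ k))
        (Eventually.of_forall fun D k => by
          rw [Real.norm_of_nonneg (by positivity)]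
          refine mul_le_of_le_one_left (by positivity) (abs_le.2 ⟨?_, ?_⟩)
          · linarith [(by positivity : (0 : ℝ) ≤ (D.choose k : ℝ) * k ! / (D : ℝ) ^ k)]
          · linarith [choose_factor_le_one D k])
      simpa using this
    have hN : Tendsto (fun N : ℕ => N + 1 + m) atTop atTop :=
      (tendsto_add_atTop_nat m).comp (tendsto_add_atTop_nat 1)
    filter_upwards [hN.eventually (hdist.eventually_lt_const hε)] with N hN z hz
    refine lt_of_le_of_lt ?_ hN
    rw [heval]
    obtain ⟨D, hD⟩ : ∃ D, D = N + 1 + m := ⟨_, rfl⟩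
    rw [← hD]
    have hF : HasSum (fun k => (((D.choose k : ℝ) * k ! / (D : ℝ) ^ k : ℝ) : ℂ) *
        ((g k : ℂ) / (k ! : ℂ) * z ^ k))
        (∑ k ∈ Finset.range (D + 1), (u D k : ℂ) * ((σ : ℂ) * z) ^ k) := by
      rw [show (∑ k ∈ Finset.range (D + 1), (u D k : ℂ) * ((σ : ℂ) * z) ^ k) =
        ∑ k ∈ Finset.range (D + 1), (((D.choose k : ℝ) * k ! / (D : ℝ) ^ k : ℝ) : ℂ) *
          ((g k : ℂ) / (k ! : ℂ) * z ^ k) from Finset.sum_congr rfl fun k _ => by
        have e : (σ : ℂ) ^ k * (σ : ℂ) ^ k = 1 := by exact_mod_cast hσ2 k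
        have hk : (k ! : ℂ) ≠ 0 := Nat.cast_ne_zero.2 k.factorial_ne_zero
        simp only [hu, mul_pow]
        push_cast
        field_simp
        linear_combination (D.choose k : ℂ) * (g k : ℂ) * z ^ k * ((D : ℂ) ^ k)⁻¹ * e]
      refine hasSum_sum_of_ne_finset_zero fun k hk => ?_
      rw [Nat.choose_eq_zero_of_lt (by simpa using hk)]
      simp
    have hdiff := hF.sub (hs' z).hasSum
    rw [← hdiff.tsum_eq]
    refine tsum_of_norm_bounded (Summable.of_nonneg_of_le (fun k => by positivity) (fun k => ?_)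
      (hsum R)).hasSum fun k => ?_
    · refine mul_le_of_le_one_left (by positivity) (abs_le.2 ⟨?_, ?_⟩)
      · linarith [(by positivity : (0 : ℝ) ≤ (D.choose k : ℝ) * k ! / (D : ℝ) ^ k)]
      · linarith [choose_factor_le_one D k]
    · rw [← sub_one_mul, norm_mul, hnorm, ← Complex.ofReal_one, ← Complex.ofReal_sub,
        Complex.norm_real, Real.norm_eq_abs]
      exact mul_le_mul_of_nonneg_left (mul_le_mul_of_nonneg_left
        (pow_le_pow_left₀ (norm_nonneg z) (hz.trans (le_max_left _ _)) k) (by positivity))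
        (abs_nonneg _)

/-- The coefficients of a polynomial with zeros in `(-∞, 0]` do not oppose in sign. -/
theorem coeff_mul_nonneg {P : ℝ[X]} (hP : ∀ z : ℂ, aeval z P = 0 → z.im = 0 ∧ z.re ≤ 0) (i j : ℕ) :
    0 ≤ P.coeff i * P.coeff j := by
  obtain ⟨p, hp⟩ : ∃ p, p = P.map (algebraMap ℝ ℂ) := ⟨_, rfl⟩
  have key : ∀ R : Multiset ℂ, (∀ r ∈ R, r.im = 0 ∧ r.re ≤ 0) → ∀ k,
      ((R.map fun r => X - C r).prod.coeff k).im = 0 ∧
        0 ≤ ((R.map fun r => X - C r).prod.coeff k).re := by
    intro R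
    induction R using Multiset.induction_on with
    | empty => intro _ k; rcases k with _ | k <;> simp [coeff_one]
    | cons r R ih =>
      intro hR k
      obtain ⟨h1, h2⟩ := hR r (Multiset.mem_cons_self r R)
      have ih' := ih fun b hb => hR b (Multiset.mem_cons_of_mem hb)
      simp only [Multiset.map_cons, Multiset.prod_cons, sub_mul, coeff_sub, coeff_C_mul]
      rcases k with _ | k
      · obtain ⟨i1, i2⟩ := ih' 0
        simp only [coeff_X_mul_zero, zero_sub, Complex.neg_re, Complex.neg_im, Complex.mul_re,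
          Complex.mul_im, h1, i1, zero_mul, mul_zero, add_zero, sub_zero, neg_zero, true_and]
        nlinarith
      · obtain ⟨i1, i2⟩ := ih' (k + 1)
        obtain ⟨j1, j2⟩ := ih' k
        simp only [coeff_X_mul, Complex.sub_re, Complex.sub_im, Complex.mul_re, Complex.mul_im, h1,
          i1, j1, zero_mul, mul_zero, add_zero, sub_zero, true_and]
        nlinarith
  have hsp := (IsAlgClosed.splits p).eq_prod_roots
  have hroots := key p.roots fun r hr => hP r (by
    have := isRoot_of_mem_roots hr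
    rwa [hp, IsRoot.def, eval_map_algebraMap] at this)
  have hl : p.leadingCoeff = (P.leadingCoeff : ℂ) := by
    rw [hp, leadingCoeff_map, Complex.coe_algebraMap]
  have e : ∀ k, P.coeff k =
      P.leadingCoeff * ((p.roots.map fun r => X - C r).prod.coeff k).re := fun k => by
    have h1 : (P.coeff k : ℂ) =
        (P.leadingCoeff : ℂ) * (p.roots.map fun r => X - C r).prod.coeff k := by
      rw [← hl, ← coeff_C_mul, ← hsp, hp, coeff_map, Complex.coe_algebraMap]
    simpa using congrArg Complex.re h1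
  rw [e i, e j, mul_mul_mul_comm]
  exact mul_nonneg (mul_self_nonneg _) (mul_nonneg (hroots i).2 (hroots j).2)

/-- A polynomial with zeros in `(-∞, 0]` gives a multiplier sequence. -/
theorem isMultiplierSeq_of_polynomial {P : ℝ[X]}
    (hP : ∀ z : ℂ, aeval z P = 0 → z.im = 0 ∧ z.re ≤ 0) :
    IsMultiplierSeq fun k => (k ! : ℝ) * P.coeff k := by
  intro d
  obtain ⟨u, hu⟩ : ∃ u : ℕ → ℝ, u = fun k => (d.choose k : ℝ) * ((k ! : ℝ) * P.coeff k) :=
    ⟨_, rfl⟩
  refine isMultiplier_of_oneSign ?_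
  by_cases h0 : ∀ j ≤ d, u j = 0
  · refine Or.inr (Or.inr fun j hj => ?_)
    have := h0 j hj
    simp only [hu] at this
    simp only
    exact_mod_cast this
  push Not at h0
  refine Or.inl ?_
  have key := nonposZeros_of_signs (d := d) (u := u) (fun i j _ _ => ?_) h0 fun z hz => ?_
  · convert key using 2 with k
    simp [hu]
  · have := coeff_mul_nonneg hP i j
    calc (0 : ℝ) ≤ (d.choose i : ℝ) * i ! * ((d.choose j : ℝ) * j !) *
          (P.coeff i * P.coeff j) := mul_nonneg (by positivity) this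
      _ = _ := by rw [hu]; ring
  · obtain ⟨p, hp⟩ : ∃ p, p = P.map (algebraMap ℝ ℂ) := ⟨_, rfl⟩
    have hrz : FA.JensenPolynomials.RealZeros p := fun w hw =>
      (hP w (by rwa [hp, eval_map_algebraMap] at hw)).1
    have hev : ∀ w : ℂ,
        (FA.JensenPolynomials.polyAct p (X ^ d)).eval w =
          ∑ j ∈ Finset.range (d + 1), (u j : ℂ) * w ^ (d - j) := fun w => by
      rw [FA.JensenPolynomials.eval_polyAct_X_pow]
      refine Finset.sum_congr rfl fun j _ => ?_
      rw [hp, coeff_map, Complex.coe_algebraMap, Nat.descFactorial_eq_factorial_mul_choose, hu]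
      push_cast
      ring
    rcases eq_or_ne z 0 with rfl | hz0
    · simp
    rcases FA.JensenPolynomials.realZeros_polyAct hrz (FA.JensenPolynomials.realZeros_X_pow d)
      with h1 | h1
    · obtain ⟨j, hj, hj0⟩ := h0
      have h2 : ∑ i ∈ Finset.range (d + 1), C (u i : ℂ) * X ^ (d - i) = (0 : ℂ[X]) :=
        Polynomial.funext fun w => by simp [← hev, h1, eval_finsetSum]
      have h3 := congrArg (fun q : ℂ[X] => q.coeff (d - j)) h2
      simp only [finsetSum_coeff, coeff_C_mul_X_pow, coeff_zero] at h3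
      rw [Finset.sum_eq_single j (fun i hi hij => if_neg (by simp at hi; omega))
        (fun h => absurd (Finset.mem_range.2 (by omega)) h), if_pos rfl] at h3
      exact absurd (Complex.ofReal_eq_zero.1 h3) hj0
    · by_contra him
      refine him ?_
      have h2 := h1 z⁻¹ (by
        rw [hev]
        calc _ = (z⁻¹) ^ d * ∑ j ∈ Finset.range (d + 1), (u j : ℂ) * z ^ j := by
              rw [Finset.mul_sum]
              refine Finset.sum_congr rfl fun j hj => ?_
              conv_rhs => rw [← Nat.sub_add_cancel (Nat.lt_succ_iff.1 (Finset.mem_range.1 hj)),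
                pow_add, inv_pow z j]
              field_simp
          _ = 0 := by rw [hz, mul_zero])
      simpa [Complex.inv_im, hz0] using h2

theorem isMultiplier_flip {d : ℕ} (h : IsMultiplier g d) :
    IsMultiplier (fun k => (-1) ^ k * g k) d := fun a ha => by
  simpa [mul_assoc] using realRooted_flip (h a ha)

/-- The Taylor coefficients of a locally uniform limit. -/
theorem tendsto_taylor {P : ℕ → ℂ[X]} {f : ℂ → ℂ} {b : ℕ → ℂ}
    (hf : ∀ z, HasSum (fun k => b k * z ^ k) (f z))
    (hlim : ∀ R ε : ℝ, 0 < ε → ∀ᶠ N in atTop, ∀ z : ℂ, ‖z‖ ≤ R → ‖(P N).eval z - f z‖ < ε)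
    (k : ℕ) : Tendsto (fun N => (P N).coeff k) atTop (𝓝 (b k)) := by
  have hfd : Differentiable ℂ f := by
    have h : TendstoLocallyUniformlyOn (fun N z => (P N).eval z) f atTop Set.univ := by
      rw [tendstoLocallyUniformlyOn_iff_forall_isCompact isOpen_univ]
      intro S _ hS
      obtain ⟨R, hR⟩ := hS.isBounded.exists_norm_le
      rw [Metric.tendstoUniformlyOn_iff]
      intro ε hε
      filter_upwards [hlim R ε hε] with N hN z hz
      rw [dist_comm, dist_eq_norm]
      exact hN z (hR z hz)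
    exact differentiableOn_univ.1 (h.differentiableOn
      (Eventually.of_forall fun N => (P N).differentiable.differentiableOn) isOpen_univ)
  refine tendsto_iff_norm_sub_tendsto_zero.2 (NormedAddGroup.tendsto_nhds_zero.2 fun ε hε => ?_)
  filter_upwards [hlim 1 (ε / 2) (half_pos hε)] with N hN
  obtain ⟨D, hD⟩ : ∃ D : ℂ → ℂ, D = fun z => (P N).eval z - f z := ⟨_, rfl⟩
  have hDd : Differentiable ℂ D := by rw [hD]; exact (P N).differentiable.sub hfd
  have hser : HasFPowerSeriesAt D
      (FormalMultilinearSeries.ofScalars ℂ fun i => (P N).coeff i - b i) 0 := by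
    rw [hasFPowerSeriesAt_iff]
    refine Eventually.of_forall fun z => ?_
    have h1 : HasSum (fun i => (P N).coeff i * z ^ i) ((P N).eval z) := by
      rw [eval_eq_sum_range]
      refine hasSum_sum_of_ne_finset_zero fun i hi => ?_
      rw [coeff_eq_zero_of_natDegree_lt (by simpa using hi), zero_mul]
    rw [zero_add, hD]
    refine (h1.sub (hf z)).congr_fun fun i => ?_
    rw [FormalMultilinearSeries.coeff_ofScalars, smul_eq_mul]
    ring
  have heq := congrArg (fun p : FormalMultilinearSeries ℂ ℂ ℂ => p.coeff k)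
    (hser.eq_formalMultilinearSeries (hDd.analyticAt 0).hasFPowerSeriesAt)
  simp only [FormalMultilinearSeries.coeff_ofScalars] at heq
  rw [norm_norm, heq, norm_div, Complex.norm_natCast,
    div_lt_iff₀ (Nat.cast_pos.2 k.factorial_pos)]
  refine lt_of_le_of_lt (Complex.norm_iteratedDeriv_le_of_forall_mem_sphere_norm_le k one_pos
    hDd.diffContOnCl (C := ε / 2) fun z hz => ?_) ?_
  · rw [hD]
    exact (hN z (by simpa using (mem_sphere_zero_iff_norm.1 hz).le)).le
  · rw [one_pow, div_one, mul_comm]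
    exact mul_lt_mul_of_pos_right (half_lt_self hε) (Nat.cast_pos.2 k.factorial_pos)

/-- **The transcendental criterion.** -/
theorem isMultiplierSeq_iff_limit :
    IsMultiplierSeq g ↔
      ∃ f : ℂ → ℂ, (∀ z, HasSum (fun k => (g k : ℂ) / (k ! : ℂ) * z ^ k) (f z)) ∧
        ∃ σ : ℝ, (σ = 1 ∨ σ = -1) ∧ ∃ P : ℕ → ℝ[X],
          (∀ N (z : ℂ), aeval z (P N) = 0 → z.im = 0 ∧ z.re ≤ 0) ∧
          ∀ R ε : ℝ, 0 < ε →
            ∀ᶠ N in atTop, ∀ z : ℂ, ‖z‖ ≤ R → ‖aeval ((σ : ℂ) * z) (P N) - f z‖ < ε := by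
  refine ⟨exists_approximation, ?_⟩
  rintro ⟨f, hf, σ, hσ, P, hP, hlim⟩ d
  have hmul : ∀ N, IsMultiplier (fun k => σ ^ k * ((k ! : ℝ) * (P N).coeff k)) d := fun N => by
    rcases hσ with rfl | rfl
    · simpa using isMultiplierSeq_of_polynomial (hP N) d
    · exact isMultiplier_flip (isMultiplierSeq_of_polynomial (hP N) d)
  have hc : ∀ k, Tendsto (fun N => ((σ ^ k * ((k ! : ℝ) * (P N).coeff k) : ℝ) : ℂ)) atTop
      (𝓝 (g k : ℂ)) := by
    intro k
    have := (tendsto_taylor (P := fun N => ((P N).map (algebraMap ℝ ℂ)).comp (C (σ : ℂ) * X))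
      hf (fun R ε hε => by simpa [eval_comp, eval_map_algebraMap] using hlim R ε hε) k).const_mul
        (k ! : ℂ)
    rw [mul_div_cancel₀ _ (Nat.cast_ne_zero.2 k.factorial_ne_zero)] at this
    refine this.congr fun N => ?_
    rw [comp_C_mul_X_coeff, coeff_map, Complex.coe_algebraMap]
    push_cast
    ring
  exact fun a ha => realRooted_of_tendsto (Eventually.of_forall fun N => hmul N a ha)
    fun j _ => (hc j).mul_const _

end FA.MultiplierSequences

end
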