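import Fermat.Agent.MultiplierSequences.Core
import Fermat.Agent.JensenPolynomials.Poulain

/-!
# The algebraic criterion of Pólya and Schur

`g` keeps real zeros in degree `≤ d` iff the zeros of `∑ C (d, k) g k x^k` are real and of one sign.
Tests on `x^m (x² - 1)` and `x^m (1 + x)^n` give `g m g (m + 2) ≥ 0` and an unbroken support.
-/

set_option autoImplicit false

noncomputable section

namespace FA.MultiplierSequences

open Polynomial Filter Topology

/-- `g` keeps real zeros in degree `≤ d`. -/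
def IsMultiplier (g : ℕ → ℝ) (d : ℕ) : Prop :=
  ∀ a : ℕ → ℝ, RealRooted (fun k => (a k : ℂ)) d → RealRooted (fun k => (g k : ℂ) * (a k : ℂ)) d

/-- All zeros real and `≤ 0`, or all real and `≥ 0`, or the polynomial is `0`. -/
def OneSign (c : ℕ → ℂ) (d : ℕ) : Prop :=
  NonposZeros c d ∨ NonposZeros (fun k => (-1) ^ k * c k) d ∨ ∀ j ≤ d, c j = 0

theorem sum_flip (c : ℕ → ℂ) (d : ℕ) (z : ℂ) :
    ∑ j ∈ Finset.range (d + 1), (-1) ^ j * c j * z ^ j =
      ∑ j ∈ Finset.range (d + 1), c j * (-z) ^ j :=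
  Finset.sum_congr rfl fun j _ => by rw [neg_pow z]; ring

theorem realRooted_flip {c : ℕ → ℂ} {d : ℕ} (h : RealRooted c d) :
    RealRooted (fun k => (-1) ^ k * c k) d := by
  rcases h with h | h
  · exact Or.inl fun z hz => by simpa using h (-z) (by rwa [← sum_flip])
  · exact Or.inr fun j hj => by simp [h j hj]

theorem isMultiplier_of_oneSign {g : ℕ → ℝ} {d : ℕ}
    (h : OneSign (fun k => (d.choose k : ℂ) * (g k : ℂ)) d) : IsMultiplier g d := by
  intro a ha
  rcases h with h | h | h
  · exact schur_szego h ha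
  · have := schur_szego (g := fun k => (-1) ^ k * (g k : ℂ))
      (fun z hz => h z (by simpa only [mul_left_comm] using hz)) (realRooted_flip ha)
    have e : (fun k => (-1 : ℂ) ^ k * (g k : ℂ) * ((-1) ^ k * (a k : ℂ))) =
        fun k => (g k : ℂ) * (a k : ℂ) := funext fun k => by
      have : ((-1 : ℂ) ^ k) * (-1) ^ k = 1 := by rw [← mul_pow]; simp
      linear_combination (g k : ℂ) * (a k : ℂ) * this
    rwa [e] at this
  · exact Or.inr fun j hj => by
      have := h j hj
      rw [mul_eq_zero, or_iff_right (Nat.cast_ne_zero.2 (Nat.choose_pos hj).ne')] at this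
      simp [this]

variable {g : ℕ → ℝ} {d : ℕ}

theorem mul_two_step (h : IsMultiplier g d) {m : ℕ} (hm : m + 2 ≤ d) : 0 ≤ g m * g (m + 2) := by
  by_contra hneg
  rw [not_le] at hneg
  obtain ⟨a, ha⟩ : ∃ a : ℕ → ℝ, a = fun k => if k = m + 2 then 1 else if k = m then -1 else 0 :=
    ⟨_, rfl⟩
  have hsum : ∀ (w : ℕ → ℂ) (z : ℂ), ∑ j ∈ Finset.range (d + 1), w j * (a j : ℂ) * z ^ j =
      w (m + 2) * z ^ (m + 2) - w m * z ^ m := by
    intro w z
    rw [Finset.sum_eq_add_of_mem (m + 2) m (Finset.mem_range.2 (by omega))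
      (Finset.mem_range.2 (by omega)) (by omega) fun j _ hj => by simp [ha, hj.1, hj.2]]
    simp [ha]
    ring
  have hra : RealRooted (fun k => (a k : ℂ)) d := Or.inl fun z hz => by
    have e := hsum (fun _ => 1) z
    simp only [one_mul] at e
    rw [e, show z ^ (m + 2) - z ^ m = z ^ m * ((z - 1) * (z + 1)) by ring, mul_eq_zero,
      mul_eq_zero] at hz
    rcases hz with hz | hz | hz
    · simp [eq_zero_of_pow_eq_zero hz]
    · simp [sub_eq_zero.1 hz]
    · simp [eq_neg_of_add_eq_zero_left hz]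
  rcases h a hra with h1 | h1
  · obtain ⟨s, hs⟩ : ∃ s, s = √(-(g m / g (m + 2))) := ⟨_, rfl⟩
    have hg2 : g (m + 2) ≠ 0 := fun e => by simp [e] at hneg
    have hq : 0 < -(g m / g (m + 2)) := by
      rw [show g m / g (m + 2) = g m * g (m + 2) / g (m + 2) ^ 2 by field_simp, ← neg_div]
      exact div_pos (by linarith) (by positivity)
    have hs2 : g (m + 2) * s ^ 2 = -g m := by
      rw [hs, Real.sq_sqrt hq.le]
      field_simp
    have hs0 : s ≠ 0 := hs ▸ (Real.sqrt_pos.2 hq).ne'
    have := h1 (Complex.I * s) (by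
      rw [hsum, pow_add, mul_pow _ _ 2, Complex.I_sq]
      have e : (g (m + 2) : ℂ) * (s : ℂ) ^ 2 = -(g m : ℂ) := by exact_mod_cast hs2
      linear_combination -(Complex.I * (s : ℂ)) ^ m * e)
    simp [hs0] at this
  · have := h1 m (by omega)
    simp [ha] at this
    simp [this] at hneg

/-- The test on `x^m (1 + x)^n`. -/
theorem realRooted_shift (h : IsMultiplier g d) {m n : ℕ} (hmn : m + n ≤ d) :
    RealRooted (fun i => (n.choose i : ℂ) * (g (m + i) : ℂ)) n := by
  obtain ⟨a, ha⟩ : ∃ a : ℕ → ℝ, a = fun k => if m ≤ k then (n.choose (k - m) : ℝ) else 0 :=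
    ⟨_, rfl⟩
  have hsum : ∀ (w : ℕ → ℂ) (z : ℂ), ∑ j ∈ Finset.range (d + 1), w j * (a j : ℂ) * z ^ j =
      z ^ m * ∑ i ∈ Finset.range (n + 1), (n.choose i : ℂ) * w (m + i) * z ^ i := by
    intro w z
    rw [show d + 1 = m + (d + 1 - m) by omega, Finset.sum_range_add,
      Finset.sum_eq_zero fun j hj => by simp [ha, (Finset.mem_range.1 hj).not_ge], zero_add,
      Finset.mul_sum]
    refine ((Finset.sum_subset (Finset.range_mono (by omega)) fun i _ hi => ?_).symm.trans
      (Finset.sum_congr rfl fun i _ => ?_))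
    · simp [ha, Nat.choose_eq_zero_of_lt (show n < i by simpa using hi)]
    · simp [ha]
      ring
  have hra : RealRooted (fun k => (a k : ℂ)) d := Or.inl fun z hz => by
    have e := hsum (fun _ => 1) z
    simp only [one_mul, mul_one] at e
    rw [e, mul_eq_zero] at hz
    rcases hz with hz | hz
    · simp [eq_zero_of_pow_eq_zero hz]
    · have e2 := add_pow z 1 n
      simp only [one_pow, mul_one] at e2
      rw [Finset.sum_congr rfl fun i _ => mul_comm (n.choose i : ℂ) (z ^ i), ← e2] at hz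
      simp [eq_neg_of_add_eq_zero_left (eq_zero_of_pow_eq_zero hz)]
  rcases h a hra with h1 | h1
  · refine Or.inl fun z hz => ?_
    by_contra him
    exact him (h1 z (by rw [hsum, hz, mul_zero]))
  · refine Or.inr fun i hi => ?_
    have := h1 (m + i) (by omega)
    simp only [ha, Nat.le_add_right, if_true, Nat.add_sub_cancel_left, Complex.ofReal_natCast]
      at this
    simp only
    rwa [mul_comm]

theorem coeff_two_linear (B : Multiset ℂ) :
    (B.map fun b => C b * X + 1).prod.coeff 0 = 1 ∧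
      (B.map fun b => C b * X + 1).prod.coeff 1 = B.sum ∧
      2 * (B.map fun b => C b * X + 1).prod.coeff 2 = B.sum ^ 2 - (B.map fun b => b ^ 2).sum := by
  induction B using Multiset.induction_on with
  | empty => simp [coeff_one]
  | cons b B ih =>
    obtain ⟨h0, h1, h2⟩ := ih
    simp only [Multiset.map_cons, Multiset.prod_cons, Multiset.sum_cons, add_mul, one_mul,
      coeff_add, mul_assoc, coeff_C_mul, coeff_X_mul, coeff_X_mul_zero, mul_zero, zero_add]
    exact ⟨h0, by rw [h0, h1]; ring, by rw [h1]; linear_combination h2⟩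

/-- The support is unbroken. -/
theorem support_step (h : IsMultiplier g d) {m M : ℕ} (hM : M ≤ d) (hmM : m < M) (hm : g m ≠ 0)
    (hgM : g M ≠ 0) : g (m + 1) ≠ 0 := by
  intro h1
  obtain ⟨n, hn, rfl⟩ : ∃ n, 2 ≤ n ∧ M = m + n := by
    refine ⟨M - m, ?_, by omega⟩
    by_contra hlt
    have : M = m + 1 := by omega
    exact hgM (this ▸ h1)
  have hr := (realRooted_shift h hM).resolve_right fun e => hm (by simpa using e 0 (Nat.zero_le n))
  obtain ⟨c, hc⟩ : ∃ c : ℕ → ℂ, c = fun i => (n.choose i : ℂ) * (g (m + i) : ℂ) := ⟨_, rfl⟩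
  have hp0 : (coeffPoly c n).eval 0 = (g m : ℂ) := by
    rw [← coeff_zero_eq_eval_zero, coeff_coeffPoly, if_pos (Nat.zero_le n), hc]
    simp
  obtain ⟨B, hBc, hBim, hB⟩ := exists_linear_factors (natDegree_coeffPoly_le c n)
    (by rw [hp0]; exact_mod_cast hm) fun z hz => hr z (by rwa [eval_coeffPoly, hc] at hz)
  obtain ⟨-, b1, b2⟩ := coeff_two_linear B
  have e := fun k => congrArg (fun p : ℂ[X] => p.coeff k) hB
  simp only [hp0, coeff_C_mul, coeff_coeffPoly] at e
  have e1 := e 1
  have e2 := e 2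
  simp only [hc, if_pos (show 1 ≤ n by omega), if_pos hn, h1, Complex.ofReal_zero,
    mul_zero] at e1 e2
  have hm' : (g m : ℂ) ≠ 0 := Complex.ofReal_ne_zero.2 hm
  have hsum : B.sum = 0 := b1 ▸ (mul_eq_zero.1 e1.symm).resolve_left hm'
  have hsq : (n.choose 2 : ℂ) * ((g m * g (m + 2) : ℝ) : ℂ) * 2 =
      -((g m : ℂ) ^ 2 * (B.map fun b => b ^ 2).sum) := by
    push_cast
    linear_combination 2 * (g m : ℂ) * e2 + (g m : ℂ) ^ 2 * b2 + (g m : ℂ) ^ 2 * B.sum * hsum
  have hre : (B.map fun b => b ^ 2).sum.re = (B.map fun b => b.re ^ 2).sum ∧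
      (0 : ℝ) ≤ (B.map fun b => b.re ^ 2).sum := by
    clear hBc hB b1 b2 e1 e2 e hsq hsum
    induction B using Multiset.induction_on with
    | empty => simp
    | cons b B ih =>
      obtain ⟨i1, i2⟩ := ih fun a ha => hBim a (Multiset.mem_cons_of_mem ha)
      simp only [Multiset.map_cons, Multiset.sum_cons, Complex.add_re]
      exact ⟨by rw [i1, pow_two b, Complex.mul_re, hBim b (Multiset.mem_cons_self b B)]; ring,
        add_nonneg (sq_nonneg _) i2⟩
  have h4 := congrArg Complex.re hsq
  simp only [Complex.mul_re, Complex.natCast_re, Complex.natCast_im, Complex.ofReal_re,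
    Complex.ofReal_im, Complex.neg_re, ← Complex.ofReal_pow, Complex.re_ofNat, Complex.im_ofNat,
    mul_zero, zero_mul, sub_zero, hre.1] at h4
  have hzero : (B.map fun b => b.re ^ 2).sum = 0 := by
    have h5 := mul_two_step h (show m + 2 ≤ d by omega)
    have h6 : g m ^ 2 * (B.map fun b => b.re ^ 2).sum ≤ 0 := by
      nlinarith [mul_nonneg (Nat.cast_nonneg (n.choose 2) : (0 : ℝ) ≤ _) h5]
    exact le_antisymm (nonpos_of_mul_nonpos_right h6 (by positivity)) hre.2
  have hall : ∀ b ∈ B, b = 0 := by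
    intro b hb
    obtain ⟨B', rfl⟩ := Multiset.exists_cons_of_mem hb
    rw [Multiset.map_cons, Multiset.sum_cons] at hzero
    have hnn : (0 : ℝ) ≤ (B'.map fun b => b.re ^ 2).sum := Multiset.sum_nonneg fun x hx => by
      obtain ⟨a, -, rfl⟩ := Multiset.mem_map.1 hx
      exact sq_nonneg _
    exact Complex.ext (by simpa using show b.re = 0 by nlinarith)
      (by simpa using hBim b (Multiset.mem_cons_self b B'))
  have en := e n
  rw [if_pos le_rfl, Multiset.eq_replicate_of_mem hall, Multiset.map_replicate,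
    Multiset.prod_replicate, C_0, zero_mul, zero_add, one_pow, coeff_one, if_neg (by omega),
    mul_zero, hc] at en
  simp [hgM] at en

theorem support_interval (h : IsMultiplier g d) {i k : ℕ} (hk : k ≤ d) (hgi : g i ≠ 0)
    (hgk : g k ≠ 0) : ∀ j, i ≤ j → j ≤ k → g j ≠ 0 := by
  intro j hij
  induction j, hij using Nat.le_induction with
  | base => exact fun _ => hgi
  | succ j _ ih => exact fun hjk => support_step h hk (by omega) (ih (by omega)) hgk

theorem mul_even_step (h : IsMultiplier g d) :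
    ∀ (k i : ℕ), i + 2 * k ≤ d → 0 ≤ g i * g (i + 2 * k) := by
  intro k
  induction k with
  | zero => intro i _; simpa using mul_self_nonneg (g i)
  | succ k ih =>
    intro i hi
    rcases eq_or_ne (g i * g (i + 2 * (k + 1))) 0 with h0 | h0
    · exact h0.ge
    have hne := support_interval h hi (left_ne_zero_of_mul h0) (right_ne_zero_of_mul h0) (i + 2)
      (by omega) (by omega)
    have h1 := mul_two_step h (m := i) (by omega)
    have h2 := ih (i + 2) (by omega)
    rw [show i + 2 + 2 * k = i + 2 * (k + 1) by ring] at h2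
    nlinarith [mul_nonneg h1 h2, mul_self_pos.2 hne]

theorem mul_same_parity (h : IsMultiplier g d) {i j : ℕ} (hi : i ≤ d) (hj : j ≤ d)
    (hp : i % 2 = j % 2) : 0 ≤ g i * g j := by
  rcases le_total i j with hij | hij
  · obtain ⟨k, rfl⟩ : ∃ k, j = i + 2 * k := ⟨(j - i) / 2, by omega⟩
    exact mul_even_step h k i hj
  · obtain ⟨k, rfl⟩ : ∃ k, i = j + 2 * k := ⟨(i - j) / 2, by omega⟩
    rw [mul_comm]
    exact mul_even_step h k j hi

/-- The signs are constant or alternate. -/
theorem exists_signs (h : IsMultiplier g d) : ∃ σ : ℝ, (σ = 1 ∨ σ = -1) ∧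
    ∀ i j, i ≤ d → j ≤ d → 0 ≤ σ ^ (i + j) * (g i * g j) := by
  by_cases hex : ∃ a, a + 1 ≤ d ∧ g a * g (a + 1) ≠ 0
  swap
  · push Not at hex
    refine ⟨1, Or.inl rfl, fun i j hi hj => ?_⟩
    rw [one_pow, one_mul]
    rcases lt_trichotomy i j with hij | rfl | hij
    · rcases eq_or_ne (g i * g j) 0 with h0 | h0
      · exact h0.ge
      exact absurd (hex i (by omega)) (mul_ne_zero (left_ne_zero_of_mul h0)
        (support_interval h hj (left_ne_zero_of_mul h0) (right_ne_zero_of_mul h0) (i + 1)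
          (by omega) (by omega)))
    · exact mul_self_nonneg _
    · rcases eq_or_ne (g i * g j) 0 with h0 | h0
      · exact h0.ge
      exact absurd (hex j (by omega)) (mul_ne_zero (right_ne_zero_of_mul h0)
        (support_interval h hi (right_ne_zero_of_mul h0) (left_ne_zero_of_mul h0) (j + 1)
          (by omega) (by omega)))
  obtain ⟨a, ha, hne⟩ := hex
  obtain ⟨σ, hσ, hpos⟩ : ∃ σ : ℝ, (σ = 1 ∨ σ = -1) ∧ 0 < σ * (g a * g (a + 1)) := by
    rcases lt_or_gt_of_ne hne with h1 | h1
    · exact ⟨-1, Or.inr rfl, by linarith⟩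
    · exact ⟨1, Or.inl rfl, by linarith⟩
  refine ⟨σ, hσ, fun i j hi hj => ?_⟩
  have hσ2 : σ ^ 2 = 1 := by rcases hσ with rfl | rfl <;> norm_num
  rcases Nat.even_or_odd (i + j) with ⟨k, hk⟩ | ⟨k, hk⟩
  · rw [hk, ← two_mul, pow_mul, hσ2, one_pow, one_mul]
    exact mul_same_parity h hi hj (by omega)
  · rw [hk, pow_succ, pow_mul, hσ2, one_pow, one_mul]
    refine nonneg_of_mul_nonneg_left (?_ : 0 ≤ σ * (g i * g j) * (σ * (g a * g (a + 1)))) hpos
    rw [show σ * (g i * g j) * (σ * (g a * g (a + 1))) = σ ^ 2 * (g i * g j * (g a * g (a + 1)))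
      by ring, hσ2, one_mul]
    rcases Nat.even_or_odd (i + a) with ⟨l, hl⟩ | ⟨l, hl⟩
    · exact (mul_nonneg (mul_same_parity h hi (show a ≤ d by omega) (by omega))
        (mul_same_parity h hj ha (by omega))).trans_eq (by ring)
    · exact (mul_nonneg (mul_same_parity h hi ha (by omega))
        (mul_same_parity h hj (show a ≤ d by omega) (by omega))).trans_eq (by ring)

/-- Real zeros and signs that do not oppose leave only zeros `≤ 0`. -/
theorem nonposZeros_of_signs {u : ℕ → ℝ}
    (hu : ∀ i j, i ≤ d → j ≤ d → 0 ≤ u i * u j) (h0 : ∃ j ≤ d, u j ≠ 0)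
    (h : ∀ z : ℂ, ∑ j ∈ Finset.range (d + 1), (u j : ℂ) * z ^ j = 0 → z.im = 0) :
    NonposZeros (fun k => (u k : ℂ)) d := by
  refine fun z hz => ⟨h z hz, ?_⟩
  by_contra hpos
  rw [not_le] at hpos
  obtain ⟨j, hj, hj0⟩ := h0
  have him := h z hz
  rw [show z = (z.re : ℂ) from Complex.ext (by simp) (by simp [him])] at hz
  simp only at hz
  have hzR : ∑ k ∈ Finset.range (d + 1), u k * z.re ^ k = 0 := by exact_mod_cast hz
  have h2 : 0 < ∑ k ∈ Finset.range (d + 1), u j * (u k * z.re ^ k) := by
    refine Finset.sum_pos' (fun k hk => ?_) ⟨j, Finset.mem_range.2 (by omega), ?_⟩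
    · rw [← mul_assoc]
      exact mul_nonneg (hu j k hj (Nat.lt_succ_iff.1 (Finset.mem_range.1 hk))) (by positivity)
    · rw [← mul_assoc]
      exact mul_pos (mul_self_pos.2 hj0) (by positivity)
  rw [← Finset.mul_sum, hzR, mul_zero] at h2
  exact lt_irrefl _ h2

theorem oneSign_of_isMultiplier (h : IsMultiplier g d) :
    OneSign (fun k => (d.choose k : ℂ) * (g k : ℂ)) d := by
  by_cases h0 : ∀ j ≤ d, g j = 0
  · exact Or.inr (Or.inr fun j hj => by simp [h0 j hj])
  push Not at h0
  obtain ⟨j, hj, hj0⟩ := h0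
  have hJ := realRooted_shift h (m := 0) (n := d) (by omega)
  simp only [zero_add] at hJ
  have hJ' := hJ.resolve_right fun e => hj0 (by
    simpa [(Nat.choose_pos hj).ne'] using e j hj)
  obtain ⟨σ, hσ, hs⟩ := exists_signs h
  have key := nonposZeros_of_signs (d := d) (u := fun k => σ ^ k * ((d.choose k : ℝ) * g k))
    (fun i l hi hl => by
      have := hs i l hi hl
      calc (0 : ℝ) ≤ σ ^ (i + l) * (g i * g l) * ((d.choose i : ℝ) * d.choose l) :=
            mul_nonneg this (by positivity)
        _ = _ := by ring)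
    ⟨j, hj, mul_ne_zero (pow_ne_zero _ (by rcases hσ with rfl | rfl <;> norm_num))
      (mul_ne_zero (Nat.cast_ne_zero.2 (Nat.choose_pos hj).ne') hj0)⟩
    (fun z hz => by
      rcases hσ with rfl | rfl
      · exact hJ' z (by simpa using hz)
      · push_cast at hz
        rw [sum_flip] at hz
        simpa using hJ' (-z) hz)
  rcases hσ with rfl | rfl
  · refine Or.inl ?_
    convert key using 2 with k
    simp
  · refine Or.inr (Or.inl ?_)
    convert key using 2 with k
    push_cast
    ring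

/-- **The algebraic criterion**, degree by degree. -/
theorem isMultiplier_iff :
    IsMultiplier g d ↔ OneSign (fun k => (d.choose k : ℂ) * (g k : ℂ)) d :=
  ⟨oneSign_of_isMultiplier, isMultiplier_of_oneSign⟩

/-- One linear factor of Laguerre's theorem. -/
theorem realRooted_laguerre_step {c : ℕ → ℂ} {r : ℂ} (hr : r.im = 0) (hr0 : r.re ≤ 0)
    (hc : RealRooted c d) : RealRooted (fun k => ((k : ℂ) - r) * c k) d := by
  rcases hc with hc | hc
  swap
  · exact Or.inr fun j hj => by simp [hc j hj]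
  obtain ⟨Q, hQ⟩ : ∃ Q, Q = coeffPoly c d := ⟨_, rfl⟩
  refine or_iff_not_imp_right.2 fun hnz z hz => ?_
  by_contra him
  have hne : Q.eval z ≠ 0 := fun h0 => him (hc z (by rwa [hQ, eval_coeffPoly] at h0))
  have hz0 : z ≠ 0 := fun e => him (by simp [e])
  have hder : z * (derivative Q).eval z = r * Q.eval z := by
    rw [hQ, coeffPoly, derivative_sum, eval_finsetSum, eval_finsetSum, Finset.mul_sum,
      Finset.mul_sum, ← sub_eq_zero, ← Finset.sum_sub_distrib, ← hz]
    refine Finset.sum_congr rfl fun k _ => ?_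
    simp only [derivative_C_mul_X_pow, eval_mul, eval_C, eval_pow, eval_X]
    rcases k with _ | k
    · simp
    · rw [Nat.add_sub_cancel, pow_succ]
      ring
  have hs := (IsAlgClosed.splits Q).eval_derivative_div_eval_of_ne_zero hne
  rw [show (derivative Q).eval z / Q.eval z = r / z by
    rw [div_eq_div_iff hne hz0]; linear_combination hder] at hs
  have hroots : ∀ a ∈ Q.roots, a.im = 0 := fun a ha => hc a (by
    have := isRoot_of_mem_roots ha
    rwa [hQ, IsRoot.def, eval_coeffPoly] at this)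
  rcases eq_or_ne Q.roots 0 with hR | hR
  · rw [hR, Multiset.map_zero, Multiset.sum_zero, div_eq_zero_iff, or_iff_left hz0] at hs
    refine hnz fun k hk => ?_
    rcases k with _ | k
    · simp [hs]
    · have hdeg : Q.natDegree = 0 := by
        rw [(IsAlgClosed.splits Q).natDegree_eq_card_roots, hR, Multiset.card_zero]
      have := coeff_eq_zero_of_natDegree_lt (p := Q) (show Q.natDegree < k + 1 by omega)
      rw [hQ, coeff_coeffPoly, if_pos hk] at this
      simp [this]
  · have h := (FA.JensenPolynomials.im_sum_inv him Q.roots hroots).2 hR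
    rw [← hs, Complex.div_im, hr] at h
    simp at h
    have : 0 ≤ z.im * -(r.re * z.im / Complex.normSq z) := by
      rw [show z.im * -(r.re * z.im / Complex.normSq z) =
        -r.re * z.im ^ 2 / Complex.normSq z by ring]
      exact div_nonneg (mul_nonneg (by linarith) (sq_nonneg _)) (Complex.normSq_nonneg z)
    linarith

/-- **Laguerre's theorem.** -/
theorem isMultiplier_laguerre {q : ℝ[X]}
    (hq : ∀ z : ℂ, aeval z q = 0 → z.im = 0 ∧ z.re ≤ 0) :
    IsMultiplier (fun k => q.eval (k : ℝ)) d := by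
  intro a ha
  obtain ⟨p, hp⟩ : ∃ p, p = q.map (algebraMap ℝ ℂ) := ⟨_, rfl⟩
  have key : ∀ R : Multiset ℂ, (∀ r ∈ R, r.im = 0 ∧ r.re ≤ 0) →
      RealRooted (fun k => (R.map fun r => (k : ℂ) - r).prod * (a k : ℂ)) d := by
    intro R
    induction R using Multiset.induction_on with
    | empty => intro _; simpa using ha
    | cons r R ih =>
      intro hR
      obtain ⟨h1, h2⟩ := hR r (Multiset.mem_cons_self r R)
      simpa [mul_assoc] using
        realRooted_laguerre_step h1 h2 (ih fun b hb => hR b (Multiset.mem_cons_of_mem hb))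
  have hk : ∀ k : ℕ, ((q.eval (k : ℝ) : ℝ) : ℂ) =
      p.leadingCoeff * (p.roots.map fun r => (k : ℂ) - r).prod := fun k => by
    have h1 : p.eval (k : ℂ) = ((q.eval (k : ℝ) : ℝ) : ℂ) := by
      rw [hp, eval_map_algebraMap, ← Complex.ofReal_natCast, ← Complex.coe_algebraMap,
        aeval_algebraMap_apply_eq_algebraMap_eval]
    rw [← h1]
    exact (IsAlgClosed.splits p).eval_eq_prod_roots _
  simp only [hk]
  have hp0 : p.leadingCoeff ≠ 0 := fun h => by
    rw [leadingCoeff_eq_zero, hp] at h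
    have := (hq Complex.I (by rw [← eval_map_algebraMap, h, eval_zero])).1
    simp at this
  rcases key p.roots (fun r hr => hq r (by
    have := isRoot_of_mem_roots hr
    rwa [hp, IsRoot.def, eval_map_algebraMap] at this)) with h | h
  · refine Or.inl fun z hz => h z ?_
    simp only [mul_assoc] at hz ⊢
    rw [← Finset.mul_sum] at hz
    exact (mul_eq_zero.1 hz).resolve_left hp0
  · exact Or.inr fun j hj => by simp only at *; rw [mul_assoc, h j hj, mul_zero]

/-- Degree two: **log-concavity**. -/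
theorem logConcave (h : IsMultiplier g d) {m : ℕ} (hm : m + 2 ≤ d) :
    g m * g (m + 2) ≤ g (m + 1) ^ 2 := by
  by_contra hlt
  rw [not_le] at hlt
  have hg2 : g (m + 2) ≠ 0 := fun e => by
    rw [e, mul_zero] at hlt
    linarith [sq_nonneg (g (m + 1))]
  rcases realRooted_shift h hm with h1 | h1
  · obtain ⟨s, hs⟩ : ∃ s, s = √(g m * g (m + 2) - g (m + 1) ^ 2) := ⟨_, rfl⟩
    have hs0 : 0 < s := hs ▸ Real.sqrt_pos.2 (by linarith)
    have hs2 : (s : ℂ) ^ 2 = ((g m * g (m + 2) - g (m + 1) ^ 2 : ℝ) : ℂ) := by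
      rw [← Complex.ofReal_pow, hs, Real.sq_sqrt (by linarith)]
    have hz := h1 (((-g (m + 1) : ℝ) + (s : ℂ) * Complex.I) / (g (m + 2) : ℂ)) (by
      have hg' : (g (m + 2) : ℂ) ≠ 0 := Complex.ofReal_ne_zero.2 hg2
      simp only [Finset.sum_range_succ, Finset.sum_range_zero, Nat.choose_zero_right,
        Nat.choose_one_right, Nat.choose_self, zero_add, add_zero, pow_zero, pow_one]
      push_cast at hs2 ⊢
      field_simp
      linear_combination (s : ℂ) ^ 2 * Complex.I_sq - hs2)
    rw [Complex.div_ofReal_im] at hz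
    simp [hg2, hs0.ne'] at hz
  · exact hg2 (by simpa using h1 2 le_rfl)

end FA.MultiplierSequences

end
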